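/-
S55 layer G — CLOSED FORMS (helper304): unconditional theorems obtained by plugging the landed
producers into the landed glue theorems.  No new mathematics; this file is the status board of
the chain   G-PL1 ⇒ first inequality;  first + second inequality ⇒ cyclic layer;
cyclic layer + descent ⇒ `PClassUpperSpec`;  ⇒ `CyclicPowSpec`.

* `firstInequality    : G.FirstInequalitySpec`     (helper604 glue + helper597 G-PL1)
* `firstInequalityCyc : G.FirstInequalityCycSpec`
* `cyclicLayer        : G.CyclicLayerSpec`         (+ helper963/helper777 second inequality)
* `pClassUpper        : G.PClassUpperSpec`         (+ helper853 descent, helper119 dévissage)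
* `cyclicPow          : G.CyclicPowSpec`           (helper537)
-/
import Fermat.Agent.S55.G.FIFinalH604
import Fermat.Agent.S55.G.PL1H597.Main
import Fermat.Agent.S55.H963.BrIndexBound
import Fermat.Agent.S55.G.UpH119.Main
import Fermat.Agent.S55.G.DescH853
import Fermat.Agent.S55.G.CycPowH537

set_option autoImplicit false

namespace Fermat.Agent.S55.G.ClosedH304

open Fermat.Agent.S55.G

/-- **G-FI**: the first inequality, unconditional. -/
theorem firstInequality : FirstInequalitySpec :=
  JGlueH604.firstInequalitySpec_of_placePrime PL1H597.placePrimeSpec

/-- **G-FI (cyclic form)**, unconditional. -/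
theorem firstInequalityCyc : FirstInequalityCycSpec :=
  JGlueH604.firstInequalityCycSpec_of_placePrime PL1H597.placePrimeSpec

/-- **G-SI**: the second inequality, unconditional (re-export). -/
theorem secondInequality : SecondInequalitySpec :=
  Fermat.Agent.S55.H963.Br.secondInequality

/-- **G-CYC**: cyclic layers of prime degree, unconditional. -/
theorem cyclicLayer : CyclicLayerSpec :=
  UpH119.cyclicLayer_of firstInequality secondInequality

/-- **G-DESC**: Galois descent for `C_S`, unconditional (re-export). -/
theorem descent : DescentSpec :=
  DescH853.descent

/-- **G-UP**: `H¹(H, C_S) = 0` and `|H²(H, C_S)| ∣ |H|` for `p`-groups, unconditional. -/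
theorem pClassUpper : PClassUpperSpec :=
  UpH119.pClassUpper_of cyclicLayer descent

/-- **G-CYCp**: cyclic `p`-power layers, unconditional. -/
theorem cyclicPow : CyclicPowSpec :=
  CycPowH537.cyclicPow_of pClassUpper firstInequalityCyc

end Fermat.Agent.S55.G.ClosedH304
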